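/-
S56, wall W2-EC, leaf (T) (helper83): glue lemmas, part 1.

* `tateGlue_psiK_zero`   : `Ψ(0) = 0` from additivity (A);
* `tateGlue_psiK_bij`    : `Ψ` is invariant under bijective equivariant linear maps (from (A));
* `tateGlue_exists_level`: a finite smooth `N` is fixed by a level `W ≤ ker(cycloChar p)`;
* `tateGlue_res_smooth`, `tateGlue_additive` : `A ↦ Ψ(A|_{G_ℚ})` is additive on `Rep (G_ℚ ⧸ W)`.
-/
import Fermat.Agent.S56.W2.EC.Defs
import Fermat.Agent.F4.BR.Smooth

set_option autoImplicit false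

namespace Fermat.Agent.S56.EC

open Fermat.Agent.F4 ExtCitation

variable {p : ℕ} [Fact p.Prime] {S : Finset Nat.Primes}

/-- The zero module. -/
noncomputable abbrev tateGlueZero (p : ℕ) [Fact p.Prime] : Rep.{0} (ZMod p) GQ :=
  Rep.of (Representation.trivial (ZMod p) GQ PUnit.{1})

lemma tateGlue_zero_smooth (S : Finset Nat.Primes) : IsSmooth (levelsS S) (tateGlueZero p) := by
  intro a
  obtain ⟨U, hU⟩ := (levelsS S).nonempty
  exact ⟨U, hU, fun g _ => Subsingleton.elim _ _⟩

/-- `Ψ(0) = 0`. -/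
lemma tateGlue_psiK_zero {KC : Cx (ZMod p) GQ} (hA : PsiAdditive S KC) :
    psiK S KC (tateGlueZero p) = 0 := by
  have h := hA (tateGlueZero p) (tateGlueZero p) (tateGlueZero p) 0 0
    (show Module.Finite (ZMod p) PUnit.{1} from inferInstance) (tateGlue_zero_smooth S)
    (fun _ _ => Subsingleton.elim _ _) (fun _ _ => Subsingleton.elim _ _)
    (fun _ _ _ => Subsingleton.elim _ _) (fun b => ⟨b, Subsingleton.elim _ _⟩)
    (by
      ext x
      constructor
      · intro _; exact Subsingleton.elim _ _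
      · intro _; exact ⟨x, Subsingleton.elim _ _⟩)
  linarith

/-- `Ψ` is invariant under bijective equivariant linear maps. -/
lemma tateGlue_psiK_bij {KC : Cx (ZMod p) GQ} (hA : PsiAdditive S KC)
    (X Y : Rep.{0} (ZMod p) GQ) (f : X →ₗ[ZMod p] Y)
    (hf : ∀ (γ : GQ) (x : X), f (X.ρ γ x) = Y.ρ γ (f x)) (hbij : Function.Bijective f)
    (hfin : Module.Finite (ZMod p) Y) (hsm : IsSmooth (levelsS S) Y) :
    psiK S KC Y = psiK S KC X := by
  have h := hA X Y (tateGlueZero p) f 0 hfin hsm hf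
    (fun _ _ => Subsingleton.elim _ _) hbij.1 (fun b => ⟨0, Subsingleton.elim _ _⟩)
    (by
      ext y
      constructor
      · intro _; exact Subsingleton.elim _ _
      · intro _; exact hbij.2 y)
  rw [h, tateGlue_psiK_zero hA, add_zero]

/-- A finite smooth module is fixed pointwise by a level contained in `ker (cycloChar p)`. -/
lemma tateGlue_exists_level (hpS : pPrime p ∈ S) (N : Rep.{0} (ZMod p) GQ)
    (hN : IsSmooth (levelsS S) N) (hfin : Module.Finite (ZMod p) N) :
    ∃ W ∈ (levelsS S).sets, W ≤ MonoidHom.ker (cycloChar p) ∧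
      ∀ g ∈ W, ∀ n : N, N.ρ g n = n := by
  have : Finite N := Module.finite_of_finite (ZMod p)
  obtain ⟨U, hU, hUfix⟩ := hN.coind_exists_level_of_finite Set.univ Set.finite_univ
  obtain ⟨V, hV, hVfix⟩ := isSmooth_Fp1 (p := p) S hpS (1 : ZMod p)
  obtain ⟨W, hW, hWle⟩ := (levelsS S).directed U hU V hV
  refine ⟨W, hW, fun g hg => ?_, fun g hg n => hUfix n (Set.mem_univ _) g (hWle hg).1⟩
  rw [MonoidHom.mem_ker]
  have h := hVfix g (hWle hg).2
  rw [br_smooth_Fp1_ρ] at h
  apply Units.ext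
  rw [Units.val_one]
  have h' : ((cycloChar p g : (ZMod p)ˣ) : ZMod p) * 1 = 1 := h
  rwa [mul_one] at h'

section Quot

variable {W : Subgroup GQ} [W.Normal]

/-- The restriction to `G_ℚ` of a module of `G_ℚ ⧸ W` is smooth. -/
lemma tateGlue_res_smooth (hW : W ∈ (levelsS S).sets) (A : Rep.{0} (ZMod p) (GQ ⧸ W)) :
    IsSmooth (levelsS S) (Rep.res (QuotientGroup.mk' W) A) := by
  intro a
  refine ⟨W, hW, fun g hg => ?_⟩
  show A.ρ (QuotientGroup.mk' W g) a = a
  have h1 : QuotientGroup.mk' W g = 1 := (QuotientGroup.eq_one_iff g).2 hg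
  rw [h1, map_one]
  rfl

/-- `A ↦ Ψ(A|_{G_ℚ})` is additive. -/
lemma tateGlue_additive {KC : Cx (ZMod p) GQ} (hA : PsiAdditive S KC)
    (hW : W ∈ (levelsS S).sets) :
    IsAdditiveFn (p := p) (fun A : Rep.{0} (ZMod p) (GQ ⧸ W) =>
      psiK S KC (Rep.res (QuotientGroup.mk' W) A)) := by
  intro A' A A'' f g hfin hf hg hinj hsurj hex
  exact hA (Rep.res (QuotientGroup.mk' W) A') (Rep.res (QuotientGroup.mk' W) A)
    (Rep.res (QuotientGroup.mk' W) A'') f g hfin (tateGlue_res_smooth hW A)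
    (fun γ x => hf (QuotientGroup.mk' W γ) x) (fun γ x => hg (QuotientGroup.mk' W γ) x)
    hinj hsurj hex

end Quot

end Fermat.Agent.S56.EC
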