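/-
S56, wall W2-EC, leaf (T) (helper83): glue lemmas, part 2.

`Γ = G ⧸ W` for a level `W`, `C ≤ Γ`, `U = π⁻¹(C)`, `A` a `Γ`-module:
`Hom(k[Γ/C], A)|_G ≃ coInd_U^G (A|_U)`,  `Φ ↦ (g ↦ π(g) · Φ(δ_{π(g)⁻¹ C}))`.
-/
import Fermat.Agent.F4.Coind.Basic
import Fermat.Agent.F4.Pairing

set_option autoImplicit false

namespace Fermat.Agent.S56.EC

open Fermat.Agent.F4

variable {k G : Type} [CommRing k] [Group G] (𝓤 : Levels G) {W : Subgroup G} [W.Normal]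
  (C : Subgroup (G ⧸ W)) (A : Rep.{0} k (G ⧸ W))

/-- `U = π⁻¹(C)`. -/
abbrev tateGlueU : Subgroup G := C.comap (QuotientGroup.mk' W)

/-- `A|_U`. -/
abbrev tateGlueX : Rep.{0} k ↥(tateGlueU C) :=
  Rep.res ((QuotientGroup.mk' W).comp (tateGlueU C).subtype) A

lemma tateGlueX_ρ (u : ↥(tateGlueU C)) (a : A) :
    (tateGlueX C A).ρ u a = A.ρ (QuotientGroup.mk' W (u : G)) a := rfl

open Classical in
/-- The function `g ↦ π(g) · Φ(δ_{π(g)⁻¹ C})`. -/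
noncomputable def tateGlueFun (Φ : (((G ⧸ W) ⧸ C) → k) →ₗ[k] A) (g : G) : A :=
  A.ρ (QuotientGroup.mk' W g)
    (Φ (Pi.single ((((QuotientGroup.mk' W g)⁻¹ : G ⧸ W) : (G ⧸ W) ⧸ C)) (1 : k)))

variable {C A}

lemma tateGlueFun_mem {𝓤 : Levels G} (hW : W ∈ 𝓤.sets) (Φ : (((G ⧸ W) ⧸ C) → k) →ₗ[k] A) :
    tateGlueFun C A Φ ∈ coIndSub (tateGlueU C).subtype 𝓤 (tateGlueX C A) := by
  refine ⟨fun d x => ?_, W, hW, fun g s hs => ?_⟩
  · have hd : QuotientGroup.mk' W (d : G) ∈ C := d.2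
    have hcos : ((((QuotientGroup.mk' W ((tateGlueU C).subtype d * x))⁻¹ : G ⧸ W) :
        (G ⧸ W) ⧸ C)) = (((QuotientGroup.mk' W x)⁻¹ : G ⧸ W) : (G ⧸ W) ⧸ C) := by
      rw [QuotientGroup.eq]
      have : ((QuotientGroup.mk' W ((tateGlueU C).subtype d * x))⁻¹)⁻¹
          * (QuotientGroup.mk' W x)⁻¹ = QuotientGroup.mk' W (d : G) := by
        rw [inv_inv, map_mul, mul_assoc, mul_inv_cancel, mul_one]
        rfl
      rw [this]
      exact hd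
    unfold tateGlueFun
    rw [hcos, tateGlueX_ρ, map_mul, map_mul]
    rfl
  · have h0 : QuotientGroup.mk' W s = 1 := (QuotientGroup.eq_one_iff s).2 hs
    have h1 : QuotientGroup.mk' W (g * s) = QuotientGroup.mk' W g := by
      rw [map_mul, h0, mul_one]
    unfold tateGlueFun
    rw [h1]

variable (C A)

/-- The comparison map `Hom(k[Γ/C], A) → coInd_U^G (A|_U)`. -/
noncomputable def tateGlueT {𝓤 : Levels G} (hW : W ∈ 𝓤.sets) :
    ((((G ⧸ W) ⧸ C) → k) →ₗ[k] A) →ₗ[k]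
      ↥(coIndSub (tateGlueU C).subtype 𝓤 (tateGlueX C A)) where
  toFun Φ := ⟨tateGlueFun C A Φ, tateGlueFun_mem hW Φ⟩
  map_add' Φ Ψ := by
    refine Subtype.ext (funext fun g => ?_)
    show tateGlueFun C A (Φ + Ψ) g = tateGlueFun C A Φ g + tateGlueFun C A Ψ g
    unfold tateGlueFun
    rw [LinearMap.add_apply, map_add]
  map_smul' c Φ := by
    refine Subtype.ext (funext fun g => ?_)
    show tateGlueFun C A (c • Φ) g = c • tateGlueFun C A Φ g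
    unfold tateGlueFun
    rw [LinearMap.smul_apply, map_smul]

variable {C A}

lemma tateGlueT_apply {𝓤 : Levels G} (hW : W ∈ 𝓤.sets) (Φ : (((G ⧸ W) ⧸ C) → k) →ₗ[k] A)
    (g : G) :
    ((tateGlueT C A hW Φ : ↥(coIndSub (tateGlueU C).subtype 𝓤 (tateGlueX C A))) : G → A) g
      = tateGlueFun C A Φ g := rfl

open Classical in
lemma tateGlue_perm_single (γ : G ⧸ W) (y : (G ⧸ W) ⧸ C) :
    (permRep k C).ρ γ (Pi.single y (1 : k)) = Pi.single (γ • y) (1 : k) := by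
  funext x
  rw [permRep_ρ_apply]
  by_cases h : x = γ • y
  · subst h
    rw [inv_smul_smul, Pi.single_eq_same, Pi.single_eq_same]
  · rw [Pi.single_eq_of_ne h, Pi.single_eq_of_ne]
    intro h'
    apply h
    rw [← h', smul_inv_smul]

open Classical in
/-- `T` is equivariant. -/
lemma tateGlueT_equivariant {𝓤 : Levels G} (hW : W ∈ 𝓤.sets) (h : G)
    (Φ : (((G ⧸ W) ⧸ C) → k) →ₗ[k] A) :
    tateGlueT C A hW
        ((Rep.res (QuotientGroup.mk' W) (homRep (permRep k C) A)).ρ h Φ)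
      = (coInd (tateGlueU C).subtype 𝓤 (tateGlueX C A)).ρ h (tateGlueT C A hW Φ) := by
  refine Subtype.ext (funext fun g => ?_)
  rw [coInd_ρ_apply, tateGlueT_apply, tateGlueT_apply]
  unfold tateGlueFun
  have h1 : ((Rep.res (QuotientGroup.mk' W) (homRep (permRep k C) A)).ρ h Φ :
        (((G ⧸ W) ⧸ C) → k) →ₗ[k] A)
      (Pi.single ((((QuotientGroup.mk' W g)⁻¹ : G ⧸ W) : (G ⧸ W) ⧸ C)) (1 : k))
      = A.ρ (QuotientGroup.mk' W h) (Φ ((permRep k C).ρ (QuotientGroup.mk' W h)⁻¹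
          (Pi.single ((((QuotientGroup.mk' W g)⁻¹ : G ⧸ W) : (G ⧸ W) ⧸ C)) (1 : k)))) := rfl
  rw [h1, tateGlue_perm_single]
  have h2 : (QuotientGroup.mk' W h)⁻¹ • ((((QuotientGroup.mk' W g)⁻¹ : G ⧸ W) : (G ⧸ W) ⧸ C))
      = ((((QuotientGroup.mk' W (g * h))⁻¹ : G ⧸ W) : (G ⧸ W) ⧸ C)) := by
    rw [map_mul, mul_inv_rev]
    rfl
  rw [h2, map_mul (QuotientGroup.mk' W) g h, map_mul A.ρ]
  rfl

open Classical in
lemma tateGlue_hom_ext [Finite ((G ⧸ W) ⧸ C)] {Φ Ψ : (((G ⧸ W) ⧸ C) → k) →ₗ[k] A}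
    (h : ∀ y : (G ⧸ W) ⧸ C, Φ (Pi.single y (1 : k)) = Ψ (Pi.single y (1 : k))) : Φ = Ψ := by
  refine LinearMap.pi_ext fun y x => ?_
  have hx : (Pi.single y x : ((G ⧸ W) ⧸ C) → k) = x • Pi.single y (1 : k) := by
    rw [← Pi.single_smul, smul_eq_mul, mul_one]
  rw [hx, map_smul, map_smul, h y]

open Classical in
/-- `T` is injective. -/
lemma tateGlueT_injective [Finite ((G ⧸ W) ⧸ C)] {𝓤 : Levels G} (hW : W ∈ 𝓤.sets) :
    Function.Injective (tateGlueT C A hW (𝓤 := 𝓤)) := by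
  rw [← LinearMap.ker_eq_bot, LinearMap.ker_eq_bot']
  intro Φ hΦ
  refine tateGlue_hom_ext fun y => ?_
  rw [LinearMap.zero_apply]
  induction y using QuotientGroup.induction_on with
  | H γ =>
    obtain ⟨g, hg⟩ := QuotientGroup.mk'_surjective W γ⁻¹
    have h1 : tateGlueFun C A Φ g = 0 := by
      rw [← tateGlueT_apply hW Φ g, hΦ]
      rfl
    unfold tateGlueFun at h1
    rw [hg, inv_inv] at h1
    have h2 := congrArg (A.ρ γ) h1
    rw [map_zero, ← Module.End.mul_apply, ← map_mul, mul_inv_cancel, map_one] at h2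
    exact h2

/-- Left `U`-equivariance in terms of `Γ`. -/
lemma tateGlue_coInd_eq {𝓤 : Levels G}
    (φ : ↥(coIndSub (tateGlueU C).subtype 𝓤 (tateGlueX C A))) (g g' : G)
    (h : QuotientGroup.mk' W g' * (QuotientGroup.mk' W g)⁻¹ ∈ C) :
    (φ : G → A) g' = A.ρ (QuotientGroup.mk' W g' * (QuotientGroup.mk' W g)⁻¹)
      ((φ : G → A) g) := by
  have hu : g' * g⁻¹ ∈ tateGlueU C := by
    show QuotientGroup.mk' W (g' * g⁻¹) ∈ C
    rw [map_mul, map_inv]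
    exact h
  have h1 := coIndSub_equivariant φ ⟨g' * g⁻¹, hu⟩ g
  have h2 : (tateGlueU C).subtype ⟨g' * g⁻¹, hu⟩ * g = g' := by
    show g' * g⁻¹ * g = g'
    rw [inv_mul_cancel_right]
  rw [h2, tateGlueX_ρ] at h1
  rw [h1]
  show A.ρ (QuotientGroup.mk' W (g' * g⁻¹)) _ = _
  rw [map_mul, map_inv]

open Classical in
/-- `T` is surjective. -/
lemma tateGlueT_surjective [Finite ((G ⧸ W) ⧸ C)] {𝓤 : Levels G} (hW : W ∈ 𝓤.sets) :
    Function.Surjective (tateGlueT C A hW (𝓤 := 𝓤)) := by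
  intro φ
  obtain ⟨s, hs⟩ := (QuotientGroup.mk'_surjective W).hasRightInverse
  let v : (G ⧸ W) ⧸ C → A := fun y =>
    A.ρ (Quotient.out y) ((φ : G → A) (s (Quotient.out y)⁻¹))
  refine ⟨(Pi.basisFun k ((G ⧸ W) ⧸ C)).constr k v, Subtype.ext (funext fun g => ?_)⟩
  rw [tateGlueT_apply]
  unfold tateGlueFun
  have hb : (Pi.single ((((QuotientGroup.mk' W g)⁻¹ : G ⧸ W) : (G ⧸ W) ⧸ C)) (1 : k))
      = Pi.basisFun k ((G ⧸ W) ⧸ C) ((((QuotientGroup.mk' W g)⁻¹ : G ⧸ W) : (G ⧸ W) ⧸ C)) := by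
    rw [Pi.basisFun_apply]
  rw [hb, Module.Basis.constr_basis]
  show A.ρ (QuotientGroup.mk' W g) (A.ρ _ ((φ : G → A) _)) = _
  set γ₀ : G ⧸ W := Quotient.out ((((QuotientGroup.mk' W g)⁻¹ : G ⧸ W) : (G ⧸ W) ⧸ C))
    with hγ₀
  have hout : ((γ₀ : G ⧸ W) : (G ⧸ W) ⧸ C)
      = (((QuotientGroup.mk' W g)⁻¹ : G ⧸ W) : (G ⧸ W) ⧸ C) := Quotient.out_eq _
  have hmem : γ₀⁻¹ * (QuotientGroup.mk' W g)⁻¹ ∈ C := QuotientGroup.eq.1 hout
  have hs' : QuotientGroup.mk' W (s γ₀⁻¹) = γ₀⁻¹ := hs _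
  have hmem' : QuotientGroup.mk' W (s γ₀⁻¹) * (QuotientGroup.mk' W g)⁻¹ ∈ C := by
    rw [hs']
    exact hmem
  rw [tateGlue_coInd_eq φ g (s γ₀⁻¹) hmem', hs', ← Module.End.mul_apply, ← Module.End.mul_apply,
    ← map_mul, ← map_mul]
  have : QuotientGroup.mk' W g * γ₀ * (γ₀⁻¹ * (QuotientGroup.mk' W g)⁻¹) = 1 := by group
  rw [this, map_one]
  rfl

end Fermat.Agent.S56.EC
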