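/-
S56, wall W2-EC, leaf (T) (helper83): glue lemmas, part 3.

`Ψ(Hom(𝔽_p[Γ/C], A)|_{G_ℚ}) = 0` for `Γ = G_ℚ ⧸ W`, `|C|` prime to `p`, from (A) and (C) + (D).
-/
import Fermat.Agent.S56.W2.EC.TateGlue.Basic
import Fermat.Agent.S56.W2.EC.TateGlue.Perm

set_option autoImplicit false

namespace Fermat.Agent.S56.EC

open Fermat.Agent.F4 ExtCitation

variable {p : ℕ} [Fact p.Prime] {S : Finset Nat.Primes}

lemma tateGlue_index {G : Type} [Group G] {W : Subgroup G} [W.Normal] (C : Subgroup (G ⧸ W)) :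
    (W.subgroupOf (tateGlueU C)).index = Nat.card C := by
  have h1 : (⊥ : Subgroup (G ⧸ W)).comap (QuotientGroup.mk' W) = W := by
    rw [MonoidHom.comap_bot, QuotientGroup.ker_mk']
  have h3 : ((⊥ : Subgroup (G ⧸ W)).comap (QuotientGroup.mk' W)).relIndex (tateGlueU C)
      = Nat.card C := by
    rw [Subgroup.relIndex_comap, Subgroup.map_comap_eq_self_of_surjective
      (QuotientGroup.mk'_surjective W), Subgroup.relIndex_bot_left]
  have h4 : ∀ V : Subgroup G, V = W → V.relIndex (tateGlueU C) = Nat.card C → 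
      (W.subgroupOf (tateGlueU C)).index = Nat.card C := by
    intro V hV h
    subst hV
    exact h
  exact h4 _ h1 h3

lemma tateGlue_le {G : Type} [Group G] {W : Subgroup G} [W.Normal] (C : Subgroup (G ⧸ W)) :
    W ≤ tateGlueU C := by
  intro g hg
  show QuotientGroup.mk' W g ∈ C
  have h0 : QuotientGroup.mk' W g = 1 := (QuotientGroup.eq_one_iff g).2 hg
  rw [h0]
  exact C.one_mem

/-- `Ψ(Hom(𝔽_p[Γ/C], A)|_{G_ℚ}) = 0`. -/
lemma tateGlue_perm_zero {KC : Cx (ZMod p) GQ} (hA : PsiAdditive S KC)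
    (hC : PsiCoindZero S KC) {W : Subgroup GQ} [W.Normal] [Finite (GQ ⧸ W)]
    (hW : W ∈ (levelsS S).sets) (hWker : W ≤ MonoidHom.ker (cycloChar p))
    (C : Subgroup (GQ ⧸ W)) (hCp : ¬ p ∣ Nat.card C) (A : Rep.{0} (ZMod p) (GQ ⧸ W))
    (hfin : Module.Finite (ZMod p) A) :
    psiK S KC (Rep.res (QuotientGroup.mk' W) (homRep (permRep (ZMod p) C) A)) = 0 := by
  have hidx : ¬ p ∣ (W.subgroupOf (tateGlueU C)).index := by
    rw [tateGlue_index]
    exact hCp
  have hfinX : Module.Finite (ZMod p) (tateGlueX C A) := hfin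
  have h0 := hC W (tateGlueU C) hW (tateGlue_le C) hWker hidx (tateGlueX C A) hfinX
    (fun u hu x => by
      rw [tateGlueX_ρ]
      have h0 : QuotientGroup.mk' W (u : GQ) = 1 := (QuotientGroup.eq_one_iff _).2 hu
      rw [h0, map_one]
      rfl)
  have hfinM : Module.Finite (ZMod p) ((((GQ ⧸ W) ⧸ C) → ZMod p) →ₗ[ZMod p] A) :=
    inferInstance
  have hbij : Function.Bijective (tateGlueT C A hW (𝓤 := levelsS S)) :=
    ⟨tateGlueT_injective hW, tateGlueT_surjective hW⟩
  have hfinY : Module.Finite (ZMod p) (coInd (tateGlueU C).subtype (levelsS S) (tateGlueX C A)) :=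
    Module.Finite.of_surjective (tateGlueT C A hW (𝓤 := levelsS S)) hbij.2
  have h1 := tateGlue_psiK_bij hA
    (Rep.res (QuotientGroup.mk' W) (homRep (permRep (ZMod p) C) A))
    (coInd (tateGlueU C).subtype (levelsS S) (tateGlueX C A))
    (tateGlueT C A hW (𝓤 := levelsS S))
    (fun γ x => tateGlueT_equivariant hW γ x) hbij hfinY (coInd_smooth _)
  rw [← h1, h0]

end Fermat.Agent.S56.EC
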